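import Mathlib

/-!
# Lang's place extension theorem (helper437, row S17, piece PLACE of G-DIV; Mathlib only)

`exists_valuationSubring_extending`: a ring homomorphism `φ : B →+* k` from a subring `B` of a
field `Ω` into an ALGEBRAICALLY CLOSED field `k` extends to a valuation subring `V ⊇ B` of `Ω`,
`π : V →+* k`, whose kernel is the maximal ideal of `V` (Atiyah–Macdonald 5.21).

Mathlib's `LocalSubring.exists_le_valuationSubring` gives a dominating valuation ring but no
control of the residue field; here the residue field embeds in `k`.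
-/

set_option autoImplicit false
set_option linter.style.haveILetI false

noncomputable section

namespace Fermat.Agent.S17.H437

open Polynomial

variable {Ω k : Type*} [Field Ω] [Field k]

/-! ## Partial homomorphisms as functional subrings of `Ω × k` -/

/-- the graph of a partial homomorphism, as a subring of `Ω × k` -/
def graph (A : Subring Ω) (f : A →+* k) : Subring (Ω × k) := (A.subtype.prod f).range

theorem mem_graph_iff {A : Subring Ω} {f : A →+* k} {p : Ω × k} :
    p ∈ graph A f ↔ ∃ h : p.1 ∈ A, f ⟨p.1, h⟩ = p.2 := by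
  constructor
  · rintro ⟨a, rfl⟩
    exact ⟨a.2, rfl⟩
  · rintro ⟨h, hf⟩
    exact ⟨⟨p.1, h⟩, Prod.ext rfl hf⟩

/-- a subring of `Ω × k` is functional if it is the graph of a partial map -/
def IsFunctional (G : Subring (Ω × k)) : Prop := ∀ p ∈ G, p.1 = 0 → p.2 = 0

theorem isFunctional_graph (A : Subring Ω) (f : A →+* k) : IsFunctional (graph A f) := by
  intro p hp h0
  obtain ⟨h, hf⟩ := mem_graph_iff.mp hp
  rw [← hf]
  have : (⟨p.1, h⟩ : A) = 0 := Subtype.ext h0
  rw [this, map_zero]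

theorem IsFunctional.eq_of_fst_eq {G : Subring (Ω × k)} (hG : IsFunctional G) {p q : Ω × k}
    (hp : p ∈ G) (hq : q ∈ G) (h : p.1 = q.1) : p.2 = q.2 := by
  have := hG (p - q) (G.sub_mem hp hq) (by simp [h])
  simpa [sub_eq_zero] using this

/-- the domain of a functional subring -/
def dom (G : Subring (Ω × k)) : Subring Ω := G.map (RingHom.fst Ω k)

theorem mem_dom_iff {G : Subring (Ω × k)} {a : Ω} : a ∈ dom G ↔ ∃ y : k, (a, y) ∈ G := by
  constructor
  · rintro ⟨p, hp, rfl⟩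
    exact ⟨p.2, hp⟩
  · rintro ⟨y, hy⟩
    exact ⟨(a, y), hy, rfl⟩

/-- the first projection `G → dom G` -/
def fstHom (G : Subring (Ω × k)) : G →+* dom G :=
  ((RingHom.fst Ω k).comp G.subtype).codRestrict (dom G) fun p => ⟨p.1, p.2, rfl⟩

theorem fstHom_bijective {G : Subring (Ω × k)} (hG : IsFunctional G) :
    Function.Bijective (fstHom G) := by
  constructor
  · intro p q h
    have h1 : (p : Ω × k).1 = (q : Ω × k).1 := congrArg Subtype.val h
    exact Subtype.ext (Prod.ext h1 (hG.eq_of_fst_eq p.2 q.2 h1))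
  · rintro ⟨a, p, hp, rfl⟩
    exact ⟨⟨p, hp⟩, rfl⟩

/-- the partial homomorphism of a functional subring -/
def homOf {G : Subring (Ω × k)} (hG : IsFunctional G) : dom G →+* k :=
  ((RingHom.snd Ω k).comp G.subtype).comp
    ((RingEquiv.ofBijective (fstHom G) (fstHom_bijective hG)).symm : dom G →+* G)

theorem mem_of_homOf {G : Subring (Ω × k)} (hG : IsFunctional G) (a : dom G) :
    ((a : Ω), homOf hG a) ∈ G := by
  set e := RingEquiv.ofBijective (fstHom G) (fstHom_bijective hG) with he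
  have h1 : e (e.symm a) = a := e.apply_symm_apply a
  have h2 : ((e.symm a : G) : Ω × k).1 = (a : Ω) := congrArg Subtype.val h1
  have h3 : ((a : Ω), homOf hG a) = ((e.symm a : G) : Ω × k) := Prod.ext h2.symm rfl
  rw [h3]
  exact (e.symm a).2

theorem homOf_eq {G : Subring (Ω × k)} (hG : IsFunctional G) {p : Ω × k} (hp : p ∈ G)
    (h : p.1 ∈ dom G) : homOf hG ⟨p.1, h⟩ = p.2 :=
  hG.eq_of_fst_eq (p := (p.1, homOf hG ⟨p.1, h⟩)) (q := p) (mem_of_homOf hG ⟨p.1, h⟩) hp rfl

/-! ## Maximal partial homomorphisms -/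

/-- `(A, f)` has no proper extension. -/
def IsMaxPlace (A : Subring Ω) (f : A →+* k) : Prop :=
  ∀ (A' : Subring Ω) (f' : A' →+* k) (h : A ≤ A'),
    (∀ a : A, f' (Subring.inclusion h a) = f a) → A' ≤ A

theorem exists_maximal_functional (G₀ : Subring (Ω × k)) (h₀ : IsFunctional G₀) :
    ∃ G : Subring (Ω × k), G₀ ≤ G ∧ IsFunctional G ∧
      ∀ G' : Subring (Ω × k), IsFunctional G' → G ≤ G' → G' ≤ G := by
  obtain ⟨G, hG₀, hG, hmax⟩ := zorn_le_nonempty₀ {G : Subring (Ω × k) | IsFunctional G}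
    (fun c hc hchain y hy => by
      refine ⟨sSup c, ?_, fun z hz => le_sSup hz⟩
      intro p hp h0
      obtain ⟨G, hGc, hpG⟩ :=
        (Subring.mem_sSup_of_directedOn ⟨y, hy⟩ hchain.directedOn).mp hp
      exact hc hGc p hpG h0) G₀ h₀
  exact ⟨G, hG₀, hG, fun G' hG' hle => hmax hG' hle⟩

/-- **Zorn**: every partial homomorphism extends to a maximal one. -/
theorem exists_isMaxPlace (B : Subring Ω) (φ : B →+* k) :
    ∃ (A : Subring Ω) (f : A →+* k) (h : B ≤ A),
      (∀ b : B, f (Subring.inclusion h b) = φ b) ∧ IsMaxPlace A f := by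
  obtain ⟨G, hG₀, hG, hmax⟩ := exists_maximal_functional (graph B φ) (isFunctional_graph B φ)
  have hBA : B ≤ dom G := fun b hb =>
    mem_dom_iff.mpr ⟨φ ⟨b, hb⟩, hG₀ (mem_graph_iff.mpr ⟨hb, rfl⟩)⟩
  refine ⟨dom G, homOf hG, hBA, ?_, ?_⟩
  · intro b
    exact homOf_eq hG (p := ((b : Ω), φ b)) (hG₀ (mem_graph_iff.mpr ⟨b.2, rfl⟩)) (hBA b.2)
  · intro A' f' h hext a ha
    have hle : G ≤ graph A' f' := by
      intro p hp
      have hp1 : p.1 ∈ dom G := mem_dom_iff.mpr ⟨p.2, hp⟩
      refine mem_graph_iff.mpr ⟨h hp1, ?_⟩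
      have := hext ⟨p.1, hp1⟩
      rw [homOf_eq hG hp hp1] at this
      exact this
    have := hmax (graph A' f') (isFunctional_graph A' f') hle
    exact mem_dom_iff.mpr ⟨f' ⟨a, ha⟩, this (mem_graph_iff.mpr ⟨ha, rfl⟩)⟩


/-! ## A maximal partial homomorphism into an algebraically closed field is a place -/

section Max

variable {A : Subring Ω} {f : A →+* k}

/-- Step 1: elements outside the kernel are invertible in `A`. -/
theorem IsMaxPlace.inv_mem (hA : IsMaxPlace A f) {a : A} (ha : f a ≠ 0) : ((a : Ω))⁻¹ ∈ A := by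
  haveI : (RingHom.ker f).IsPrime := RingHom.ker_isPrime f
  have hle : A ≤ (LocalSubring.ofPrime A (RingHom.ker f)).toSubring :=
    LocalSubring.le_ofPrime A (RingHom.ker f)
  have hg : ∀ y : (RingHom.ker f).primeCompl, IsUnit (f y) := fun y =>
    IsUnit.mk0 _ (fun h => y.2 (RingHom.mem_ker.mpr h))
  let ψ : (LocalSubring.ofPrime A (RingHom.ker f)).toSubring →+* k :=
    IsLocalization.lift (M := (RingHom.ker f).primeCompl)
      (S := (LocalSubring.ofPrime A (RingHom.ker f)).toSubring) (g := f) hg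
  have hψ : ∀ b : A, ψ (Subring.inclusion hle b) = f b := fun b => IsLocalization.lift_eq hg b
  have hA' := hA _ ψ hle hψ
  have hu : IsUnit (algebraMap A (LocalSubring.ofPrime A (RingHom.ker f)).toSubring a) :=
    IsLocalization.map_units _
      (⟨a, fun h => ha (RingHom.mem_ker.mp h)⟩ : (RingHom.ker f).primeCompl)
  obtain ⟨b, hb⟩ := hu.exists_right_inv
  have h1 : (a : Ω) * (b : Ω) = 1 := congrArg Subtype.val hb
  have hb' : (b : Ω) = (a : Ω)⁻¹ := eq_inv_of_mul_eq_one_right h1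
  rw [← hb']
  exact hA' b.2

theorem IsMaxPlace.ker_isMaximal (hA : IsMaxPlace A f) : (RingHom.ker f).IsMaximal := by
  rw [Ideal.isMaximal_iff]
  refine ⟨fun h => ?_, fun J a _ ha haJ => ?_⟩
  · have h1 : f 1 = 0 := RingHom.mem_ker.mp h
    rw [map_one] at h1
    exact one_ne_zero h1
  · have hfa : f a ≠ 0 := fun h => ha (RingHom.mem_ker.mpr h)
    have hinv := hA.inv_mem hfa
    have ha0 : (a : Ω) ≠ 0 := fun h0 => hfa (by
      have : a = 0 := Subtype.ext h0
      rw [this, map_zero])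
    have h1 : (⟨(a : Ω)⁻¹, hinv⟩ : A) * a = 1 := Subtype.ext (inv_mul_cancel₀ ha0)
    rw [← h1]
    exact J.mul_mem_left _ haJ

variable [IsAlgClosed k]

set_option synthInstance.maxHeartbeats 400000 in
set_option maxHeartbeats 1600000 in
/-- Core step: if the kernel does not generate the unit ideal of `A[x]`, then `x ∈ A`. -/
theorem IsMaxPlace.mem_of_map_ker_ne_top (hA : IsMaxPlace A f) (x : Ω)
    (hI : (RingHom.ker f).map (algebraMap A (Algebra.adjoin A {x})) ≠ ⊤) : x ∈ A := by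
  classical
  haveI hPmax : (RingHom.ker f).IsMaximal := hA.ker_isMaximal
  obtain ⟨M, hM, hPM⟩ := Ideal.exists_le_maximal _ hI
  haveI := hM
  letI : Field (A ⧸ RingHom.ker f) := Ideal.Quotient.field _
  letI : Field ((Algebra.adjoin A {x}) ⧸ M) := Ideal.Quotient.field M
  have hcomap : RingHom.ker f ≤ M.comap (algebraMap A (Algebra.adjoin A {x})) :=
    Ideal.map_le_iff_le_comap.mp hPM
  letI : Algebra (A ⧸ RingHom.ker f) ((Algebra.adjoin A {x}) ⧸ M) :=
    (Ideal.quotientMap M (algebraMap A (Algebra.adjoin A {x})) hcomap).toAlgebra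
  letI : Algebra (A ⧸ RingHom.ker f) k :=
    (Ideal.Quotient.lift (RingHom.ker f) f (fun a ha => RingHom.mem_ker.mp ha)).toAlgebra
  haveI : IsScalarTower A (A ⧸ RingHom.ker f) ((Algebra.adjoin A {x}) ⧸ M) :=
    IsScalarTower.of_algebraMap_eq (fun a => rfl)
  haveI : Algebra.FiniteType A (Algebra.adjoin A {x}) :=
    Algebra.FiniteType.adjoin_of_finite (Set.finite_singleton x)
  haveI : Algebra.FiniteType A ((Algebra.adjoin A {x}) ⧸ M) :=
    Algebra.FiniteType.of_surjective (Ideal.Quotient.mkₐ A M) (Ideal.Quotient.mkₐ_surjective A M)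
  haveI : Algebra.FiniteType (A ⧸ RingHom.ker f) ((Algebra.adjoin A {x}) ⧸ M) :=
    Algebra.FiniteType.of_restrictScalars_finiteType A _ _
  haveI : Module.Finite (A ⧸ RingHom.ker f) ((Algebra.adjoin A {x}) ⧸ M) :=
    finite_of_finite_type_of_isJacobsonRing _ _
  haveI : Algebra.IsAlgebraic (A ⧸ RingHom.ker f) ((Algebra.adjoin A {x}) ⧸ M) :=
    Algebra.IsAlgebraic.of_finite _ _
  haveI : Module.IsTorsionFree (A ⧸ RingHom.ker f) ((Algebra.adjoin A {x}) ⧸ M) :=
    FaithfulSMul.to_isTorsionFree _ _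
  haveI : Module.IsTorsionFree (A ⧸ RingHom.ker f) k :=
    FaithfulSMul.to_isTorsionFree _ _
  let g : ((Algebra.adjoin A {x}) ⧸ M) →ₐ[A ⧸ RingHom.ker f] k := IsAlgClosed.lift
  let ψ : (Algebra.adjoin A {x}).toSubring →+* k :=
    (g : ((Algebra.adjoin A {x}) ⧸ M) →+* k).comp (Ideal.Quotient.mk M)
  have hle : A ≤ (Algebra.adjoin A {x}).toSubring := fun a ha =>
    algebraMap_mem (Algebra.adjoin A {x}) (⟨a, ha⟩ : A)
  have hψ : ∀ a : A, ψ (Subring.inclusion hle a) = f a := by
    intro a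
    have h1 : Ideal.Quotient.mk M (algebraMap A (Algebra.adjoin A {x}) a) =
        algebraMap (A ⧸ RingHom.ker f) ((Algebra.adjoin A {x}) ⧸ M)
          (Ideal.Quotient.mk (RingHom.ker f) a) := rfl
    show g (Ideal.Quotient.mk M (algebraMap A (Algebra.adjoin A {x}) a)) = f a
    rw [h1, g.commutes]
    rfl
  exact hA _ ψ hle hψ (Algebra.self_mem_adjoin_singleton A x)

/-- Step 2a: `A` is integrally closed in `Ω`. -/
theorem IsMaxPlace.mem_of_isIntegral (hA : IsMaxPlace A f) {x : Ω} (hx : IsIntegral A x) :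
    x ∈ A := by
  refine hA.mem_of_map_ker_ne_top x ?_
  haveI := hA.ker_isMaximal
  have hint : Algebra.IsIntegral A (Algebra.adjoin A {x}) := Algebra.IsIntegral.adjoin (by simpa)
  have hinj : Function.Injective (algebraMap A (Algebra.adjoin A {x})) := fun a b h =>
    Subtype.ext (congrArg (fun z : Algebra.adjoin A {x} => (z : Ω)) h)
  obtain ⟨Q, hQ, e⟩ := Ideal.exists_ideal_over_maximal_of_isIntegral
    (S := Algebra.adjoin A {x}) (RingHom.ker f)
    (by rw [(RingHom.injective_iff_ker_eq_bot _).mp hinj]; exact bot_le)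
  intro htop
  have h1 : (RingHom.ker f).map (algebraMap A (Algebra.adjoin A {x})) ≤ Q :=
    Ideal.map_le_iff_le_comap.mpr e.ge
  rw [htop] at h1
  exact hQ.ne_top (top_unique h1)

/-- Step 2: a maximal partial homomorphism is defined on a valuation ring. -/
theorem IsMaxPlace.mem_or_inv_mem (hA : IsMaxPlace A f) (x : Ω) : x ∈ A ∨ x⁻¹ ∈ A := by
  by_cases hx : x ∈ A
  · exact Or.inl hx
  right
  have hx0 : x ≠ 0 := fun e => hx (e ▸ zero_mem _)
  letI := invertibleOfNonzero hx0
  haveI hmax := hA.ker_isMaximal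
  have htop : (RingHom.ker f).map (algebraMap A (Algebra.adjoin A {x})) = ⊤ := by
    by_contra h
    exact hx (hA.mem_of_map_ker_ne_top x h)
  obtain ⟨p, hp, hpx⟩ := Algebra.exists_aeval_invOf_eq_zero_of_idealMap_adjoin_sup_span_eq_top x
    (RingHom.ker f) hmax.ne_top (by rw [htop]; exact top_sup_eq _)
  have hlc : f p.leadingCoeff = 1 := by
    have h1 := RingHom.mem_ker.mp hp
    rwa [map_sub, map_one, sub_eq_zero] at h1
  have hlc0 : f p.leadingCoeff ≠ 0 := by rw [hlc]; exact one_ne_zero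
  have hinv := hA.inv_mem hlc0
  have hne : ((p.leadingCoeff : A) : Ω) ≠ 0 := fun h0 => hlc0 (by
    have : p.leadingCoeff = 0 := Subtype.ext h0
    rw [this, map_zero])
  have hunit : IsUnit p.leadingCoeff :=
    isUnit_iff_exists_inv.mpr ⟨⟨_, hinv⟩, Subtype.ext (mul_inv_cancel₀ hne)⟩
  apply hA.mem_of_isIntegral
  rw [← invOf_eq_inv]
  exact ⟨.C hunit.unit⁻¹.1 * p, by simp [Polynomial.Monic], by simpa using .inr hpx⟩

end Max

/-! ## The theorem -/

/-- **Lang's place extension theorem.** A ring homomorphism from a subring `B` of a field `Ω`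
into an algebraically closed field `k` extends to a valuation subring `V ⊇ B` of `Ω`; the
kernel of the extension is the maximal ideal of `V`. -/
theorem exists_valuationSubring_extending [IsAlgClosed k] (B : Subring Ω) (φ : B →+* k) :
    ∃ (V : ValuationSubring Ω) (π : V →+* k) (h : B ≤ V.toSubring),
      (∀ b : B, π (Subring.inclusion h b) = φ b) ∧ (∀ v : V, π v = 0 ↔ ¬ IsUnit v) := by
  obtain ⟨A, f, hBA, hext, hA⟩ := exists_isMaxPlace B φ
  refine ⟨⟨A, hA.mem_or_inv_mem⟩, f, hBA, hext, fun v => ?_⟩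
  constructor
  · intro hv hu
    obtain ⟨w, hw⟩ := hu.exists_right_inv
    have h1 : f v * f w = 1 := by rw [← map_mul]; exact (congrArg f hw).trans (map_one f)
    rw [hv, zero_mul] at h1
    exact zero_ne_one h1
  · intro hv
    by_contra h0
    apply hv
    have hinv := hA.inv_mem h0
    have hne : (v : Ω) ≠ 0 := fun e => h0 (by
      have : v = 0 := Subtype.ext e
      rw [this]; exact map_zero f)
    exact isUnit_iff_exists_inv.mpr ⟨⟨_, hinv⟩, Subtype.ext (mul_inv_cancel₀ hne)⟩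

/-! ## `K`-places: valuation rings containing an algebraically closed field `K`, residue field `K` -/

section KPlace

variable (K : Type*) [Field K] [IsAlgClosed K] [Algebra K Ω]

/-- **Extension of `K`-points to `K`-places.** A `K`-algebra homomorphism `φ : B → K` from a
subalgebra `B ⊆ Ω` extends to a valuation subring `V ⊇ B` with a homomorphism `π : V → K` which
is the identity on `K` and whose kernel is the maximal ideal (so the residue field of `V` is `K`). -/
theorem exists_kPlace_extending (B : Subalgebra K Ω) (φ : B →ₐ[K] K) :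
    ∃ (V : ValuationSubring Ω) (π : V →+* K),
      (∀ b : B, ∃ hb : (b : Ω) ∈ V, π ⟨(b : Ω), hb⟩ = φ b) ∧
      (∀ c : K, ∃ hc : algebraMap K Ω c ∈ V, π ⟨algebraMap K Ω c, hc⟩ = c) ∧
      (∀ v : V, π v = 0 ↔ ¬ IsUnit v) := by
  obtain ⟨V, π, h, hext, hker⟩ :=
    exists_valuationSubring_extending B.toSubring (φ : B →+* K)
  refine ⟨V, π, fun b => ⟨h b.2, hext b⟩, fun c => ?_, hker⟩
  have hc : algebraMap K Ω c ∈ B := B.algebraMap_mem c
  refine ⟨h hc, ?_⟩
  have h1 := hext ⟨algebraMap K Ω c, hc⟩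
  have h2 : φ (⟨algebraMap K Ω c, hc⟩ : B) = c := by
    have : (⟨algebraMap K Ω c, hc⟩ : B) = algebraMap K B c := rfl
    rw [this, AlgHom.commutes]
    rfl
  exact h1.trans h2

/-- **Prescribed values.** If `τ i ∈ Ω` are algebraically independent over `K`, then for any
values `a i ∈ K` there is a `K`-place of `Ω` with `τ i ↦ a i`. -/
theorem exists_kPlace_of_algebraicIndependent {ι : Type*} (τ : ι → Ω)
    (hτ : AlgebraicIndependent K τ) (a : ι → K) :
    ∃ (V : ValuationSubring Ω) (π : V →+* K),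
      (∀ c : K, ∃ hc : algebraMap K Ω c ∈ V, π ⟨algebraMap K Ω c, hc⟩ = c) ∧
      (∀ v : V, π v = 0 ↔ ¬ IsUnit v) ∧
      (∀ i, ∃ hi : τ i ∈ V, π ⟨τ i, hi⟩ = a i) := by
  obtain ⟨V, π, hext, hK, hker⟩ := exists_kPlace_extending K (Algebra.adjoin K (Set.range τ))
    ((MvPolynomial.aeval a).comp (hτ.aevalEquiv.symm : _ →ₐ[K] MvPolynomial ι K))
  refine ⟨V, π, hK, hker, fun i => ?_⟩
  have hi : τ i ∈ Algebra.adjoin K (Set.range τ) := Algebra.subset_adjoin ⟨i, rfl⟩
  obtain ⟨hb, hπ⟩ := hext ⟨τ i, hi⟩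
  refine ⟨hb, hπ.trans ?_⟩
  have h1 : hτ.aevalEquiv (MvPolynomial.X i) = ⟨τ i, hi⟩ := by
    apply Subtype.ext
    simp
  have h2 : hτ.aevalEquiv.symm ⟨τ i, hi⟩ = MvPolynomial.X i := by
    rw [← h1, AlgEquiv.symm_apply_apply]
  show MvPolynomial.aeval a (hτ.aevalEquiv.symm ⟨τ i, hi⟩) = a i
  rw [h2, MvPolynomial.aeval_X]

set_option synthInstance.maxHeartbeats 400000 in
set_option maxHeartbeats 1600000 in
/-- **Nullstellensatz form.** A finitely generated subalgebra of `Ω` has a `K`-point. -/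
theorem exists_algHom_of_finiteType (B : Subalgebra K Ω) [Algebra.FiniteType K B] :
    Nonempty (B →ₐ[K] K) := by
  obtain ⟨m, hm⟩ := Ideal.exists_maximal B
  haveI := hm
  letI : Field (B ⧸ m) := Ideal.Quotient.field m
  haveI : Algebra.FiniteType K (B ⧸ m) :=
    Algebra.FiniteType.of_surjective (Ideal.Quotient.mkₐ K m) (Ideal.Quotient.mkₐ_surjective K m)
  haveI : Module.Finite K (B ⧸ m) := finite_of_finite_type_of_isJacobsonRing _ _
  haveI : Algebra.IsIntegral K (B ⧸ m) := Algebra.IsIntegral.of_finite K (B ⧸ m)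
  have hbij : Function.Bijective (algebraMap K (B ⧸ m)) :=
    IsAlgClosed.algebraMap_bijective_of_isIntegral
  let e : K ≃ₐ[K] (B ⧸ m) := AlgEquiv.ofBijective (Algebra.ofId K (B ⧸ m)) hbij
  exact ⟨(e.symm : (B ⧸ m) →ₐ[K] K).comp (Ideal.Quotient.mkₐ K m)⟩

/-- **Unit avoidance.** Finitely many non-zero elements of `Ω` are units of a suitable
`K`-place. -/
theorem exists_kPlace_units (s : Finset Ω) (hs : ∀ c ∈ s, c ≠ 0) :
    ∃ (V : ValuationSubring Ω) (π : V →+* K),
      (∀ c : K, ∃ hc : algebraMap K Ω c ∈ V, π ⟨algebraMap K Ω c, hc⟩ = c) ∧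
      (∀ v : V, π v = 0 ↔ ¬ IsUnit v) ∧
      (∀ c ∈ s, ∃ hc : c ∈ V, π ⟨c, hc⟩ ≠ 0) := by
  classical
  haveI : Algebra.FiniteType K (Algebra.adjoin K ((s : Set Ω) ∪ (s.image (·⁻¹) : Finset Ω))) :=
    Algebra.FiniteType.adjoin_of_finite ((Finset.finite_toSet s).union (Finset.finite_toSet _))
  obtain ⟨φ⟩ := exists_algHom_of_finiteType K
    (Algebra.adjoin K ((s : Set Ω) ∪ (s.image (·⁻¹) : Finset Ω)))
  obtain ⟨V, π, hext, hK, hker⟩ := exists_kPlace_extending K _ φ
  refine ⟨V, π, hK, hker, fun c hc => ?_⟩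
  have h1 : c ∈ Algebra.adjoin K ((s : Set Ω) ∪ (s.image (·⁻¹) : Finset Ω)) :=
    Algebra.subset_adjoin (Or.inl hc)
  have h2 : c⁻¹ ∈ Algebra.adjoin K ((s : Set Ω) ∪ (s.image (·⁻¹) : Finset Ω)) :=
    Algebra.subset_adjoin (Or.inr (Finset.mem_image_of_mem _ hc))
  obtain ⟨hb1, -⟩ := hext ⟨c, h1⟩
  obtain ⟨hb2, -⟩ := hext ⟨c⁻¹, h2⟩
  refine ⟨hb1, fun h0 => ?_⟩
  have hu : IsUnit (⟨c, hb1⟩ : V) :=
    isUnit_iff_exists_inv.mpr ⟨⟨c⁻¹, hb2⟩, Subtype.ext (mul_inv_cancel₀ (hs c hc))⟩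
  exact (hker _).mp h0 hu

end KPlace

end Fermat.Agent.S17.H437
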